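import Mathlib
import Fermat.Prelude.Def_FLTPrelim_Ramification
import Fermat.Agent.SS.Dict.Aut

/-!
# Program S (S34), package TOP : definitions

The `E`-level Galois action `ssdAut`, the base change `ssdUp` and the equivariance `ssdUp_aut` live in
`SS/Dict/Aut.lean` (helper12).  Here: `ssInertiaE E N 𝔸`, the image of the inertia group of
`𝔸 ⊂ ℚ̄` in `SemilinearAut E F_E(N)`.
-/

set_option autoImplicit false
set_option linter.unusedSectionVars false
set_option linter.unusedVariables false

noncomputable section

namespace Fermat.Agent.SS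

open ModularCurve AlgebraicCurve Fermat.Agent.S18

local notation "Qb" => AlgebraicClosure ℚ

variable (E : IntermediateField ℚ Qb) (N : ℕ) [NeZero N]

/-- the image of the inertia group of `𝔸` in the semilinear automorphisms of `F_E(N)`. -/
def ssInertiaE (A : ValuationSubring Qb) [Normal ℚ E] :
    Subgroup (SemilinearAut E (modularFunctionFieldFullC E N)) :=
  (A.inertiaSubgroupIn ℚ).map ((ssdAut E N).comp (AlgEquiv.restrictNormalHom E))

theorem mem_ssInertiaE (A : ValuationSubring Qb) [Normal ℚ E] {σ : Qb ≃ₐ[ℚ] Qb}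
    (hσ : σ ∈ A.inertiaSubgroupIn ℚ) :
    ssdAut E N (σ.restrictNormal E) ∈ ssInertiaE E N A :=
  ⟨σ, hσ, rfl⟩

end Fermat.Agent.SS
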