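import Mathlib
import Fermat.Prelude.Def_FLTPrelim_Ramification
import Fermat.Agent.S05.Inertia
import Fermat.Agent.S18.Core.Defs

/-!
# Program S (S34), package TOP, row T-RES : the inertia-fixed elements fill the residue field

`A = 𝔸 ∩ E` (`E / ℚ` finite normal, `𝔸 ⊂ ℚ̄` a valuation subring over `q`) : every element of `A`
is congruent modulo `𝔪_A` to an element of `A` fixed by the (restriction to `E` of the) inertia
group of `𝔸` :  `A = A₀ + 𝔪_A`.

Elementary proof (`sstr_res_abs`) : the orbit polynomial `∏_{h ∈ H} (X - h x)` has `H`-fixed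
coefficients in `V` and reduces to `(X - x̄)^m`, `m = |H| = q^a m'`, `q ∤ m'`; its coefficient at
`X^(m - q^a)` is `- m' x̄^(q^a)`, so `x̄^(q^a)` is the residue of a fixed `c`; the residue field is
algebraic over `𝔽_q`, so `c̄ = (c̄^(q^(r a - a)))^(q^a)`, and the Frobenius is injective.
-/

set_option autoImplicit false
set_option linter.unusedSectionVars false
set_option linter.unusedVariables false
set_option linter.style.haveILetI false

noncomputable section

namespace Fermat.Agent.SS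

open Polynomial

section Abstract

variable {E : Type*} [Field E]

/-- coefficient of `X^(q^a (m-1))` in `(X - c)^(q^a m)` in characteristic `q` -/
theorem sstr_coeff_pow {k : Type*} [Field k] (q : ℕ) [Fact q.Prime] [CharP k q] (a m : ℕ)
    (hm : 1 ≤ m) (c : k) :
    ((X - C c : k[X]) ^ (q ^ a * m)).coeff ((m - 1) * q ^ a) = -(m : k) * c ^ q ^ a := by
  have hqa : 0 < q ^ a := pos_of_ne_zero (pow_ne_zero _ (Fact.out : q.Prime).ne_zero)
  have h1 : (X - C c : k[X]) ^ (q ^ a * m) = expand k (q ^ a) ((X + C (-(c ^ q ^ a))) ^ m) := by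
    have h0 : expand k (q ^ a) ((X + C (-(c ^ q ^ a))) ^ m) = (X ^ q ^ a - C c ^ q ^ a) ^ m := by
      rw [map_pow, map_add, expand_X, expand_C, C_neg, C_pow, sub_eq_add_neg]
    rw [h0, pow_mul, sub_pow_char_pow]
  rw [h1, coeff_expand_mul hqa, coeff_X_add_C_pow]
  have h2 : m - (m - 1) = 1 := by omega
  have h3 : m.choose (m - 1) = m := by
    rw [Nat.choose_symm hm, Nat.choose_one_right]
  rw [h2, h3, pow_one]
  ring

/-- (RES), abstract form : a finite group `H` of automorphisms preserving the valuation ring `V`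
and acting trivially on its residue field (of characteristic `q`, algebraic over `𝔽_q`):
every element of `V` is congruent modulo `𝔪_V` to an `H`-fixed element of `V`. -/
theorem sstr_res_abs (V : ValuationSubring E) (H : Subgroup (E ≃+* E)) [Finite H]
    (hH : ∀ h ∈ H, ∀ y ∈ V, h y ∈ V ∧ h y - y ∈ V.nonunits)
    (q : ℕ) (hq : q.Prime) (hqV : (q : E) ∈ V.nonunits)
    (halg : ∀ y ∈ V, ∃ r : ℕ, 1 ≤ r ∧ y ^ q ^ r - y ∈ V.nonunits)
    (x : E) (hx : x ∈ V) :
    ∃ x₀ ∈ V, (∀ h ∈ H, h x₀ = x₀) ∧ x - x₀ ∈ V.nonunits := by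
  classical
  haveI : Fact q.Prime := ⟨hq⟩
  letI : Fintype H := Fintype.ofFinite H
  let res : V →+* IsLocalRing.ResidueField V := IsLocalRing.residue V
  -- residue zero iff nonunit
  have hres0 : ∀ y : V, res y = 0 ↔ (y : E) ∈ V.nonunits := fun y => by
    rw [IsLocalRing.residue_eq_zero_iff, ValuationSubring.coe_mem_nonunits_iff]
  -- the residue field has characteristic `q`
  have hqk : (q : IsLocalRing.ResidueField V) = 0 := by
    have : res (q : V) = 0 := (hres0 _).mpr (by simpa using hqV)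
    simpa using this
  haveI : CharP (IsLocalRing.ResidueField V) q := by
    have := CharP.ringChar_of_prime_eq_zero hq hqk
    exact this ▸ ringChar.charP _
  -- the orbit polynomial over `V`
  let xh : H → V := fun h => ⟨(h : E ≃+* E) x, (hH h h.2 x hx).1⟩
  let f : V[X] := ∏ h : H, (X - C (xh h))
  have hxh : ∀ h, res (xh h) = res ⟨x, hx⟩ := by
    intro h
    rw [← sub_eq_zero, ← map_sub, hres0]
    exact (hH h h.2 x hx).2
  have hfmap : f.map res = (X - C (res ⟨x, hx⟩)) ^ Fintype.card H := by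
    simp only [f, Polynomial.map_prod, Polynomial.map_sub, map_X, map_C, hxh, Finset.prod_const,
      Finset.card_univ]
  -- the coefficients are fixed by `H`
  have hfix : ∀ g : E ≃+* E, g ∈ H → ∀ i, g ((f.coeff i : V) : E) = ((f.coeff i : V) : E) := by
    intro g hg i
    have hfE : f.map V.subtype = ∏ h : H, (X - C ((h : E ≃+* E) x)) := by
      simp only [f, Polynomial.map_prod, Polynomial.map_sub, map_X, map_C]
      rfl
    have h1 : (f.map V.subtype).map (g : E →+* E) = f.map V.subtype := by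
      rw [hfE, Polynomial.map_prod]
      simp only [Polynomial.map_sub, map_X, map_C]
      refine Fintype.prod_equiv (Equiv.mulLeft (⟨g, hg⟩ : H)) _ _ (fun h => ?_)
      rfl
    have h2 := congrArg (fun p => p.coeff i) h1
    simpa [coeff_map] using h2
  -- `|H| = q^a m'`
  have hcard : Fintype.card H ≠ 0 := Fintype.card_ne_zero
  obtain ⟨a, m', hm', hm⟩ := Nat.exists_eq_pow_mul_and_not_dvd hcard q hq.ne_one
  have hm'1 : 1 ≤ m' := by
    rcases Nat.eq_zero_or_pos m' with h | h
    · exact absurd (h ▸ dvd_zero q) hm'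
    · exact h
  set xb : IsLocalRing.ResidueField V := res ⟨x, hx⟩ with hxb
  -- the coefficient at `X^(m - q^a)`
  set c₀ : V := f.coeff ((m' - 1) * q ^ a) with hc₀
  have hc₀res : res c₀ = -(m' : IsLocalRing.ResidueField V) * xb ^ q ^ a := by
    rw [hc₀, ← coeff_map, hfmap, hm]
    exact sstr_coeff_pow q a m' hm'1 xb
  -- an inverse of `m'` modulo `q`
  have hcop : Nat.Coprime m' q := ((Nat.Prime.coprime_iff_not_dvd hq).mpr hm').symm
  set u : ℤ := Nat.gcdA m' q with hu
  have hbez : ((m' : ℤ) * u + (q : ℤ) * Nat.gcdB m' q) = 1 := by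
    rw [← Nat.gcd_eq_gcd_ab, hcop, Nat.cast_one]
  have hmu : (m' : IsLocalRing.ResidueField V) * (u : IsLocalRing.ResidueField V) = 1 := by
    have := congrArg (fun z : ℤ => (z : IsLocalRing.ResidueField V)) hbez
    simpa [hqk] using this
  -- the fixed element `c'` with residue `x̄^(q^a)`
  set c' : V := -c₀ * (u : V) with hc'
  have hc'res : res c' = xb ^ q ^ a := by
    rw [hc', map_mul, map_neg, hc₀res, map_intCast]
    calc - (-(m' : IsLocalRing.ResidueField V) * xb ^ q ^ a) * (u : IsLocalRing.ResidueField V)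
        = ((m' : IsLocalRing.ResidueField V) * u) * xb ^ q ^ a := by ring
      _ = xb ^ q ^ a := by rw [hmu, one_mul]
  have hc'fix : ∀ g : E ≃+* E, g ∈ H → g (c' : E) = (c' : E) := by
    intro g hg
    rw [hc']
    push_cast
    rw [map_mul, map_neg, map_intCast, hfix g hg]
  -- algebraicity of the residue of `c'`
  obtain ⟨r, hr1, hr⟩ := halg (c' : E) c'.2
  have hr' : res c' ^ q ^ r = res c' := by
    rw [← sub_eq_zero, ← map_pow, ← map_sub, hres0]
    simpa using hr
  have hiter : ∀ s : ℕ, res c' ^ q ^ (r * s) = res c' := by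
    intro s
    induction s with
    | zero => simp
    | succ s ih => rw [Nat.mul_succ, pow_add, pow_mul, ih, hr']
  have hra : a ≤ r * a := Nat.le_mul_of_pos_left a hr1
  -- the fixed element
  refine ⟨((c' ^ q ^ (r * a - a) : V) : E), (c' ^ q ^ (r * a - a) : V).2, ?_, ?_⟩
  · intro g hg
    push_cast
    rw [map_pow, hc'fix g hg]
  · have hy : res (c' ^ q ^ (r * a - a)) ^ q ^ a = xb ^ q ^ a := by
      rw [map_pow, ← pow_mul, ← pow_add, Nat.sub_add_cancel hra, hiter a, hc'res]
    have hzero : (xb - res (c' ^ q ^ (r * a - a))) ^ q ^ a = 0 := by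
      rw [sub_pow_char_pow, hy, sub_self]
    have hzero' : xb - res (c' ^ q ^ (r * a - a)) = 0 := pow_eq_zero_iff
      (pow_ne_zero _ hq.ne_zero) |>.mp hzero
    rw [hxb, ← map_sub, hres0] at hzero'
    simpa using hzero'

/-- the residue field of a valuation ring over `q` is algebraic over `𝔽_q` at the residues of
algebraic elements : `y^(q^r) ≡ y` for some `r ≥ 1`. -/
theorem sstr_pow_sub_mem [CharZero E] (V : ValuationSubring E) (q : ℕ) (hq : q.Prime)
    (hqV : (q : E) ∈ V.nonunits) (y : E) (hy : y ∈ V) (halg : IsAlgebraic ℤ y) :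
    ∃ r : ℕ, 1 ≤ r ∧ y ^ q ^ r - y ∈ V.nonunits := by
  classical
  haveI : Fact q.Prime := ⟨hq⟩
  let res : V →+* IsLocalRing.ResidueField V := IsLocalRing.residue V
  have hres0 : ∀ z : V, res z = 0 ↔ (z : E) ∈ V.nonunits := fun z => by
    rw [IsLocalRing.residue_eq_zero_iff, ValuationSubring.coe_mem_nonunits_iff]
  have hqk : (q : IsLocalRing.ResidueField V) = 0 := by
    have : res (q : V) = 0 := (hres0 _).mpr (by simpa using hqV)
    simpa using this
  haveI : CharP (IsLocalRing.ResidueField V) q := by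
    have := CharP.ringChar_of_prime_eq_zero hq hqk
    exact this ▸ ringChar.charP _
  letI : Algebra (ZMod q) (IsLocalRing.ResidueField V) := ZMod.algebra _ q
  -- a primitive integer polynomial killing `y`
  obtain ⟨p, hp0, hpy⟩ := halg
  have hfy : aeval y p.primPart = 0 := aeval_primPart_eq_zero hp0 hpy
  have hprim : p.primPart.IsPrimitive := p.isPrimitive_primPart
  set f := p.primPart with hf
  set fb : (ZMod q)[X] := f.map (Int.castRingHom (ZMod q)) with hfb
  have hfb0 : fb ≠ 0 := by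
    intro h0
    have hdvd : C (q : ℤ) ∣ f := by
      rw [C_dvd_iff_dvd_coeff]
      intro i
      have := congrArg (fun g : (ZMod q)[X] => g.coeff i) h0
      simp only [hfb, coeff_map, coeff_zero, eq_intCast] at this
      exact (ZMod.intCast_zmod_eq_zero_iff_dvd _ _).mp this
    have hu : IsUnit (q : ℤ) := hprim _ hdvd
    rw [Int.isUnit_iff] at hu
    have := hq.one_lt
    omega
  set yb : IsLocalRing.ResidueField V := res ⟨y, hy⟩ with hyb
  have hroot : aeval yb fb = 0 := by
    have h1 : eval₂ (Int.castRingHom V) (⟨y, hy⟩ : V) f = 0 := by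
      apply Subtype.ext
      have := hom_eval₂ f (Int.castRingHom V) V.subtype (⟨y, hy⟩ : V)
      rw [show (V.subtype (eval₂ (Int.castRingHom V) (⟨y, hy⟩ : V) f) : E)
        = ((eval₂ (Int.castRingHom V) (⟨y, hy⟩ : V) f : V) : E) from rfl] at this
      rw [this]
      have h2 : (V.subtype.comp (Int.castRingHom V)) = algebraMap ℤ E := RingHom.ext_int _ _
      rw [h2]
      exact hfy
    have h3 := hom_eval₂ f (Int.castRingHom V) res (⟨y, hy⟩ : V)
    rw [h1, map_zero] at h3
    rw [hfb, aeval_def, eval₂_map]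
    have h4 : (algebraMap (ZMod q) (IsLocalRing.ResidueField V)).comp (Int.castRingHom (ZMod q))
        = res.comp (Int.castRingHom V) := RingHom.ext_int _ _
    rw [h4]
    exact h3.symm
  have halg' : IsAlgebraic (ZMod q) yb := ⟨fb, hfb0, hroot⟩
  have hint : IsIntegral (ZMod q) yb := halg'.isIntegral
  haveI : FiniteDimensional (ZMod q) ↥(IntermediateField.adjoin (ZMod q) {yb}) :=
    IntermediateField.adjoin.finiteDimensional hint
  haveI : Finite ↥(IntermediateField.adjoin (ZMod q) {yb}) := Module.finite_of_finite (ZMod q)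
  letI : Fintype ↥(IntermediateField.adjoin (ZMod q) {yb}) := Fintype.ofFinite _
  haveI : CharP ↥(IntermediateField.adjoin (ZMod q) {yb}) q :=
    charP_of_injective_algebraMap (algebraMap (ZMod q) _).injective q
  obtain ⟨n, -, hn⟩ := FiniteField.card ↥(IntermediateField.adjoin (ZMod q) {yb}) q
  have hpow := FiniteField.pow_card
    (⟨yb, IntermediateField.mem_adjoin_simple_self (ZMod q) yb⟩ :
      ↥(IntermediateField.adjoin (ZMod q) {yb}))
  rw [hn] at hpow
  have hpow' : yb ^ q ^ (n : ℕ) = yb := by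
    have := congrArg (fun z : ↥(IntermediateField.adjoin (ZMod q) {yb}) =>
      (z : IsLocalRing.ResidueField V)) hpow
    simpa using this
  refine ⟨n, n.pos, ?_⟩
  have : res (⟨y, hy⟩ ^ q ^ (n : ℕ) - ⟨y, hy⟩) = 0 := by
    rw [map_sub, map_pow, hpow', sub_self]
  have h5 := (hres0 _).mp this
  simpa using h5

end Abstract

section Concrete

local notation "Qb" => AlgebraicClosure ℚ

open Fermat.Agent.S18 Fermat.Agent.S05

/-- the maximal ideal of `𝔸 ∩ E` -/
theorem sstr_mem_nonunits_dVal (𝔸 : ValuationSubring Qb) (E : IntermediateField ℚ Qb) (z : E) :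
    z ∈ (s18dVal 𝔸 E).nonunits ↔ ((z : E) : Qb) ∈ 𝔸.nonunits := by
  rw [ValuationSubring.mem_nonunits_iff_or, ValuationSubring.mem_nonunits_iff_or]
  have h1 : z = 0 ↔ ((z : E) : Qb) = 0 := by
    constructor
    · rintro rfl; rfl
    · intro h; exact Subtype.ext h
  have h2 : z⁻¹ ∈ s18dVal 𝔸 E ↔ ((z : E) : Qb)⁻¹ ∈ 𝔸 := by
    unfold s18dVal
    rw [ValuationSubring.mem_comap, map_inv₀]
    rfl
  rw [h1, h2]

/-- (T-RES) `A = A₀ + 𝔪_A` : every element of `A = 𝔸 ∩ E` is congruent modulo `𝔪_A` to an element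
of `A` fixed by the inertia group of `𝔸`. -/
theorem sstr_res (𝔸 : ValuationSubring Qb) (q : ℕ) (hq : q.Prime) (h𝔸 : 𝔸.LiesOverPrime q)
    (E : IntermediateField ℚ Qb) [FiniteDimensional ℚ E] [Normal ℚ E]
    (x : E) (hx : x ∈ s18dVal 𝔸 E) :
    ∃ x₀ : E, x₀ ∈ s18dVal 𝔸 E ∧
      (∀ σ ∈ 𝔸.inertiaSubgroupIn ℚ, σ.restrictNormal E x₀ = x₀) ∧
      x - x₀ ∈ (s18dVal 𝔸 E).nonunits := by
  classical
  let ψ₂ : (E ≃ₐ[ℚ] E) →* (E ≃+* E) :=
    { toFun := fun f => f.toRingEquiv, map_one' := rfl, map_mul' := fun _ _ => rfl }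
  let H₁ : Subgroup (E ≃ₐ[ℚ] E) := (𝔸.inertiaSubgroupIn ℚ).map (AlgEquiv.restrictNormalHom E)
  let H : Subgroup (E ≃+* E) := H₁.map ψ₂
  haveI : Finite H := Finite.of_surjective (ψ₂.subgroupMap H₁) (ψ₂.subgroupMap_surjective H₁)
  have hmemV : ∀ z : E, z ∈ s18dVal 𝔸 E ↔ ((z : E) : Qb) ∈ 𝔸 := fun z => Iff.rfl
  have hH : ∀ h ∈ H, ∀ y ∈ s18dVal 𝔸 E, h y ∈ s18dVal 𝔸 E ∧ h y - y ∈ (s18dVal 𝔸 E).nonunits := by
    rintro h ⟨g, ⟨σ, hσ, rfl⟩, rfl⟩ y hy
    have hin := isInertial_of_mem_inertiaSubgroupIn 𝔸 σ hσ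
    have hcomm : ((σ.restrictNormal E y : E) : Qb) = σ ((y : E) : Qb) :=
      AlgEquiv.restrictNormal_commutes σ E y
    have hy' : ((y : E) : Qb) ∈ 𝔸 := (hmemV y).mp hy
    constructor
    · rw [hmemV]
      change ((σ.restrictNormal E y : E) : Qb) ∈ 𝔸
      rw [hcomm]
      exact (hin.mem_iff _).mpr hy'
    · rw [sstr_mem_nonunits_dVal]
      change (((σ.restrictNormal E y - y : E)) : Qb) ∈ 𝔸.nonunits
      push_cast
      rw [hcomm]
      exact hin.sub_mem _ hy'
  have hqV : ((q : ℕ) : E) ∈ (s18dVal 𝔸 E).nonunits := by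
    rw [sstr_mem_nonunits_dVal]
    have : (((q : ℕ) : E) : Qb) = ((q : ℕ) : Qb) := by simp
    rw [this]
    exact h𝔸
  have halg : ∀ y ∈ s18dVal 𝔸 E, ∃ r : ℕ, 1 ≤ r ∧ y ^ q ^ r - y ∈ (s18dVal 𝔸 E).nonunits := by
    intro y hy
    have h1 : IsAlgebraic ℚ y := Algebra.IsAlgebraic.isAlgebraic y
    have h2 : IsAlgebraic ℤ y := (IsFractionRing.isAlgebraic_iff ℤ ℚ E).mpr h1
    exact sstr_pow_sub_mem (s18dVal 𝔸 E) q hq hqV y hy h2
  obtain ⟨x₀, hx₀, hfix, hcongr⟩ := sstr_res_abs (s18dVal 𝔸 E) H hH q hq hqV halg x hx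
  refine ⟨x₀, hx₀, ?_, hcongr⟩
  intro σ hσ
  exact hfix (ψ₂ (AlgEquiv.restrictNormalHom E σ)) ⟨_, ⟨σ, hσ, rfl⟩, rfl⟩

end Concrete

end Fermat.Agent.SS
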