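import Mathlib
import Fermat.Prelude.Def_ModularCurve_ArithmeticGalois
import Fermat.Prelude.Def_GaloisRep_LocalConditions

/-!
# Program S (S34), package TOP, leaf TOP-KUM : from functions to divisor classes

`SsCore N p q` (the function-level core: `g^{(σ-1)(τ-1)}` is a `p^k`-th power whenever `p^k` divides
all orders of `g`) implies `(σ - 1)(τ - 1) = 0` on the `p`-power torsion of `J₀(N)`.
-/

set_option autoImplicit false
set_option linter.unusedSectionVars false
set_option linter.unusedVariables false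

noncomputable section

namespace Fermat.Agent.SS

open ModularCurve AlgebraicCurve

/-! ### Abstract part: a semilinear double difference on `Pic⁰` -/

section Abstract

variable {K F : Type*} [Field K] [Field F] [Algebra K F]

/-- `ord_v (s • f) = ord_{s⁻¹ v} f`. -/
theorem sstk_ord_smul (s : SemilinearAut K F) (v : Place K F) (f : F) :
    v.ord (s • f) = (s⁻¹ • v).ord f := by
  have h := SemilinearAut.ord_smul s (s⁻¹ • v) f
  rwa [smul_inv_smul] at h

theorem sstk_smul_ne_zero (s : SemilinearAut K F) {g : F} (hg : g ≠ 0) : s • g ≠ 0 := by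
  rw [SemilinearAut.smul_def]
  exact (map_ne_zero_iff _ (SemilinearAut.toRingAut s).injective).mpr hg

/-- the order of the double difference -/
theorem sstk_ord_dd (s t : SemilinearAut K F) {g : F} (hg : g ≠ 0) (v : Place K F) :
    v.ord ((s • (t • g)) * g / ((s • g) * (t • g))) =
      (t⁻¹ • (s⁻¹ • v)).ord g + v.ord g - (s⁻¹ • v).ord g - (t⁻¹ • v).ord g := by
  have hsg := sstk_smul_ne_zero s hg
  have htg := sstk_smul_ne_zero t hg
  have hstg := sstk_smul_ne_zero s htg
  rw [div_eq_mul_inv, Place.ord_mul _ (mul_ne_zero hstg hg) (inv_ne_zero (mul_ne_zero hsg htg)),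
    Place.ord_mul _ hstg hg, Place.ord_inv, Place.ord_mul _ hsg htg]
  rw [sstk_ord_smul s v (t • g), sstk_ord_smul t (s⁻¹ • v) g, sstk_ord_smul s v g,
    sstk_ord_smul t v g]
  ring

theorem sstk_dd_ne_zero (s t : SemilinearAut K F) {g : F} (hg : g ≠ 0) :
    (s • (t • g)) * g / ((s • g) * (t • g)) ≠ 0 :=
  div_ne_zero (mul_ne_zero (sstk_smul_ne_zero s (sstk_smul_ne_zero t hg)) hg)
    (mul_ne_zero (sstk_smul_ne_zero s hg) (sstk_smul_ne_zero t hg))

/-- the double difference of a divisor, pointwise -/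
theorem sstk_div_dd (s t : SemilinearAut K F) (D : Divisor K F) (v : Place K F) :
    (s • (t • D)) v + D v - (s • D) v - (t • D) v =
      D (t⁻¹ • (s⁻¹ • v)) + D v - D (s⁻¹ • v) - D (t⁻¹ • v) := by
  rw [SemilinearAut.divisor_smul_apply s (t • D) v, SemilinearAut.divisor_smul_apply t D (s⁻¹ • v),
    SemilinearAut.divisor_smul_apply s D v, SemilinearAut.divisor_smul_apply t D v]

/-- ABSTRACT TOP-KUM: if `m D = div g` and the double difference of `g` is an `m`-th power then the
double difference of the class of `D` vanishes. -/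
theorem sstk_abstract (s t : SemilinearAut K F) (D : Divisor.degZero (K := K) (F := F))
    (m : ℕ) (hm : m ≠ 0) (g y : F) (hg0 : g ≠ 0)
    (hgD : ∀ v : Place K F, v.ord g = (m : ℤ) * (D : Divisor K F) v)
    (hy : y ^ m = (s • (t • g)) * g / ((s • g) * (t • g))) :
    s • (t • Pic0.mk D) + Pic0.mk D = s • Pic0.mk D + t • Pic0.mk D := by
  have hy0 : y ≠ 0 := by
    intro h0
    rw [h0, zero_pow hm] at hy
    exact sstk_dd_ne_zero s t hg0 hy.symm
  have hm' : (m : ℤ) ≠ 0 := by exact_mod_cast hm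
  have hord : ∀ v : Place K F,
      v.ord y = (s • (t • (D : Divisor K F))) v + (D : Divisor K F) v -
        (s • (D : Divisor K F)) v - (t • (D : Divisor K F)) v := by
    intro v
    apply mul_left_cancel₀ hm'
    have h1 : v.ord (y ^ m) = (m : ℤ) * v.ord y := by
      rw [← zpow_natCast, Place.ord_zpow]
    have h2 : v.ord (y ^ m) =
        (t⁻¹ • (s⁻¹ • v)).ord g + v.ord g - (s⁻¹ • v).ord g - (t⁻¹ • v).ord g :=
      (congrArg v.ord hy).trans (sstk_ord_dd s t hg0 v)
    have h3 := sstk_div_dd s t (D : Divisor K F) v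
    rw [hgD (t⁻¹ • (s⁻¹ • v)), hgD v, hgD (s⁻¹ • v), hgD (t⁻¹ • v)] at h2
    linear_combination h2 - h1 - (m : ℤ) * h3
  simp only [SemilinearAut.pic0_smul_mk]
  rw [← Pic0.mk_add, ← Pic0.mk_add]
  refine (QuotientAddGroup.eq_iff_sub_mem).mpr ?_
  rw [AddSubgroup.mem_addSubgroupOf]
  refine ⟨y, hy0, fun v => ?_⟩
  rw [hord v]
  simp only [AddSubgroup.coe_sub, AddSubgroup.coe_add, SemilinearAut.coe_degZeroSMulHom,
    Finsupp.coe_sub, Finsupp.coe_add, Pi.sub_apply, Pi.add_apply]
  ring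

/-- a torsion class comes from a function -/
theorem sstk_exists_fun (D : Divisor.degZero (K := K) (F := F)) (m : ℕ)
    (hD : m • Pic0.mk D = 0) :
    ∃ g : F, g ≠ 0 ∧ ∀ v : Place K F, v.ord g = (m : ℤ) * (D : Divisor K F) v := by
  have hn' : Pic0.mk (m • D) = 0 := by
    rw [← hD]
    exact (map_nsmul (QuotientAddGroup.mk' _) m D)
  have hprin : ((m • D : Divisor.degZero (K := K) (F := F)) : Divisor K F) ∈
      Divisor.principal := by
    have := (QuotientAddGroup.eq_zero_iff _).mp hn'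
    simpa [AddSubgroup.mem_addSubgroupOf] using this
  obtain ⟨g, hg0, hg⟩ := hprin
  refine ⟨g, hg0, fun v => ?_⟩
  rw [← hg v]
  simp [Finsupp.smul_apply]

end Abstract

/-! ### The modular instance -/

local notation "Qb" => AlgebraicClosure ℚ
local notation "GQ" => (AlgebraicClosure ℚ ≃ₐ[ℚ] AlgebraicClosure ℚ)

/-- the coefficientwise Galois action on `F_ℚ̄(N)` -/
abbrev ssGal (N : ℕ) (σ : GQ) : modularFunctionFieldBar N ≃+* modularFunctionFieldBar N :=
  arithmeticRingAut (modularFunctionFieldFull N) σ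

/-- the double difference `g^{(σ-1)(τ-1)} = στ g · g / (σ g · τ g)` -/
def ssDDBar (N : ℕ) (σ τ : GQ) (g : modularFunctionFieldBar N) : modularFunctionFieldBar N :=
  ssGal N σ (ssGal N τ g) * g / (ssGal N σ g * ssGal N τ g)

/-- THE FUNCTION-LEVEL CORE of Program S. -/
def SsCore (N : ℕ) [NeZero N] (p q : ℕ) : Prop :=
  ∀ A : ValuationSubring Qb, A.LiesOverPrime q →
    ∀ σ ∈ A.inertiaSubgroupIn ℚ, ∀ τ ∈ A.inertiaSubgroupIn ℚ,
    ∀ (k : ℕ) (g : modularFunctionFieldBar N), g ≠ 0 →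
      (∀ P : Place Qb (modularFunctionFieldBar N), ((p ^ k : ℕ) : ℤ) ∣ P.ord g) →
      ∃ y : modularFunctionFieldBar N, y ^ (p ^ k) = ssDDBar N σ τ g

theorem sstk_dd_eq {N : ℕ} (σ τ : GQ) (g : modularFunctionFieldBar N) :
    ssDDBar N σ τ g =
      (arithmeticGalois (modularFunctionFieldFull N) σ •
        (arithmeticGalois (modularFunctionFieldFull N) τ • g)) * g /
      ((arithmeticGalois (modularFunctionFieldFull N) σ • g) *
        (arithmeticGalois (modularFunctionFieldFull N) τ • g)) := rfl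

/-- (TOP-KUM) from functions to divisor classes. -/
theorem ss_mono_of_core (N : ℕ) [NeZero N] (p q : ℕ) (hp : p.Prime) (h : SsCore N p q)
    (A : ValuationSubring Qb) (hA : A.LiesOverPrime q)
    (σ : GQ) (hσ : σ ∈ A.inertiaSubgroupIn ℚ) (τ : GQ) (hτ : τ ∈ A.inertiaSubgroupIn ℚ)
    (x : JZero N) (hx : ∃ n : ℕ, p ^ n • x = 0) :
    σ • (τ • x) + x = σ • x + τ • x := by
  obtain ⟨n, hn⟩ := hx
  obtain ⟨D, rfl⟩ := Pic0.mk_surjective x
  obtain ⟨g, hg0, hgD⟩ := sstk_exists_fun D (p ^ n) hn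
  have hdiv : ∀ P : Place Qb (modularFunctionFieldBar N), ((p ^ n : ℕ) : ℤ) ∣ P.ord g :=
    fun P => ⟨_, hgD P⟩
  obtain ⟨y, hy⟩ := h A hA σ hσ τ hτ n g hg0 hdiv
  rw [sstk_dd_eq] at hy
  simp only [galois_smul_pic0_def]
  exact sstk_abstract _ _ D (p ^ n) (pow_ne_zero n hp.ne_zero) g y hg0 hgD hy

end Fermat.Agent.SS
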