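import Mathlib
import Fermat.Agent.SS.Top.Kum
import Fermat.Agent.SS.Top.Defs
import Fermat.Agent.SS.Top.Apply
import Fermat.Agent.S18.Core.Spec
import Fermat.Agent.S24.PlacesPrincipal

/-!
# Program S (S34), package TOP : the concrete side `SsGeo`

`SsCore N p q` (in `Top/Kum.lean`) is THE FUNCTION-LEVEL STATEMENT; `ss_mono_of_core` (PROVED there)
turns it into `(σ - 1)(τ - 1) = 0` on `J₀(N)[p^∞]`.

THIS FILE: THE CONCRETE SIDE `SsGeo N 𝔸 E t` (rows VAL / K2 / GERM / LOC) for one chart coordinate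
`t` (`t = j` for `q ≥ 5`, `t = h_a` for `q ∈ {2,3}`), consumed by `ss_core_of_geo`
(`Top/Core.lean`), which assembles `SsCore N p q` from

* the abstract number-field theorem `ss_numberfield` (`SS/NF/Spec.lean`), applied through
  `sst_apply` (`Top/Apply.lean`) to `F = F_E(N) ⊂ E((q))`, `F' = F(y) ⊂ E((q))`;
* the descent `ssd_descend` (`SS/Dict/Descend.lean`) from `F_ℚ̄(N)` to `F_E(N)`;
* `SsGeo N 𝔸 E t` for every `𝔸` over `q` and every big enough number field `E`.
-/

set_option autoImplicit false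
set_option linter.unusedSectionVars false
set_option linter.unusedVariables false
set_option synthInstance.maxHeartbeats 400000

noncomputable section

namespace Fermat.Agent.SS

open ModularCurve AlgebraicCurve IntermediateField Polynomial Fermat.Agent.S18

local notation "Qb" => AlgebraicClosure ℚ

/-! ### The concrete side -/

/-- THE CONCRETE SIDE for the chart coordinate `t ∈ F_E(N)` : what VAL / K2 / GERM / LOC deliver. -/
structure SsGeo (N : ℕ) [NeZero N] (A : ValuationSubring Qb) (E : IntermediateField ℚ Qb)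
    [Normal ℚ E] [IsDiscreteValuationRing ↥(s18dVal A E)] [CharZero ↥(s18dVal A E)]
    (t : modularFunctionFieldFullC E N) : Prop where
  /-- `t` is transcendental over `E` -/
  transc : Transcendental E t
  /-- `F_E(N)` is finite over `E(t)` -/
  fin : FiniteDimensional E⟮t⟯ (modularFunctionFieldFullC E N)
  /-- (C1) inertia acts trivially on both chart rings modulo `ϖ` -/
  inertial : ∀ ϖ : ↥(s18dVal A E), Irreducible ϖ → ∀ γ ∈ ssInertiaE E N A,
    SsInertial ϖ t γ ∧ SsInertial ϖ t⁻¹ γ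
  /-- (C2) = (K2) -/
  k2 : ∀ (ϖ : ↥(s18dVal A E)) (hϖ : Irreducible ϖ), ∀ σ ∈ ssInertiaE E N A,
    ∀ τ ∈ ssInertiaE E N A, ∀ f : modularFunctionFieldFullC E N, f ≠ 0 →
      S18DvdGauss hϖ t (ssnfDD σ τ f - 1)
  /-- (C3) the local structure at the closed points of the chart `t` -/
  loc0 : ∀ ϖ : ↥(s18dVal A E), Irreducible ϖ → ∀ σ ∈ ssInertiaE E N A,
    ∀ τ ∈ ssInertiaE E N A, ∀ 𝔫 : Ideal ↥(s18tInt ↥(s18dVal A E) t), 𝔫.IsMaximal →
      sskPi ϖ t ∈ 𝔫 → SsLocAt t σ τ 𝔫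
  /-- (C3) the local structure at the closed points of the chart `t⁻¹` -/
  locInf : ∀ ϖ : ↥(s18dVal A E), Irreducible ϖ → ∀ σ ∈ ssInertiaE E N A,
    ∀ τ ∈ ssInertiaE E N A, ∀ 𝔫 : Ideal ↥(s18tInt ↥(s18dVal A E) t⁻¹), 𝔫.IsMaximal →
      sskPi ϖ t⁻¹ ∈ 𝔫 → SsLocAt t⁻¹ σ τ 𝔫

end Fermat.Agent.SS
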