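import Mathlib
import Fermat.Agent.SS.Top.Spec
import Fermat.Agent.SS.Dict.Descend

/-!
# Program S (S34), package TOP : the assembly `ss_core_of_geo`
-/

set_option autoImplicit false
set_option linter.unusedSectionVars false
set_option linter.unusedVariables false
set_option linter.style.haveILetI false
set_option synthInstance.maxHeartbeats 400000

noncomputable section

namespace Fermat.Agent.SS

open ModularCurve AlgebraicCurve IntermediateField Polynomial Fermat.Agent.S18 Fermat.Agent.S24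

local notation "Qb" => AlgebraicClosure ℚ
local notation "GQ" => (AlgebraicClosure ℚ ≃ₐ[ℚ] AlgebraicClosure ℚ)

/-- a root of unity lies in every valuation subring -/
theorem sstc_mem_of_pow_eq_one {K : Type*} [Field K] (V : ValuationSubring K) {x : K} {n : ℕ}
    (hn : n ≠ 0) (hx : x ^ n = 1) : x ∈ V := by
  rcases V.mem_or_inv_mem x with h | h
  · exact h
  · obtain ⟨m, rfl⟩ : ∃ m, n = m + 1 := Nat.exists_eq_succ_of_ne_zero hn
    have hx0 : x ≠ 0 := by
      rintro rfl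
      rw [zero_pow hn] at hx
      exact zero_ne_one hx
    have : x = x⁻¹ ^ m := by
      rw [inv_pow]
      rw [pow_succ] at hx
      field_simp
      rw [← hx]
      ring
    rw [this]
    exact V.pow_mem h m

/-- a ring homomorphism commuting with two pairs of maps commutes with the double difference -/
theorem sstc_map_dd {F₁ F₂ : Type*} [Field F₁] [Field F₂] (φ : F₁ →+* F₂)
    (s₁ t₁ : F₁ → F₁) (s₂ t₂ : F₂ → F₂) (hs : ∀ x, φ (s₁ x) = s₂ (φ x))
    (ht : ∀ x, φ (t₁ x) = t₂ (φ x)) (g : F₁) :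
    φ (s₁ (t₁ g) * g / (s₁ g * t₁ g)) = s₂ (t₂ (φ g)) * φ g / (s₂ (φ g) * t₂ (φ g)) := by
  rw [map_div₀, map_mul, map_mul, hs, ht, hs]

section Dict

variable (E : IntermediateField ℚ Qb) (N : ℕ) [NeZero N]

/-- `ssdUp` of the double difference. -/
theorem sstc_up_dd [Normal ℚ E] (σ τ : GQ) (g : modularFunctionFieldFullC E N) :
    ssdUp E N (ssnfDD (ssdAut E N (σ.restrictNormal E)) (ssdAut E N (τ.restrictNormal E)) g) =
      ssDDBar N σ τ (ssdUp E N g) :=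
  sstc_map_dd (ssdUp E N) (fun x => ssdAut E N (σ.restrictNormal E) • x)
    (fun x => ssdAut E N (τ.restrictNormal E) • x) (ssGal N σ) (ssGal N τ)
    (fun x => ssdUp_aut E N σ x) (fun x => ssdUp_aut E N τ x) g

end Dict

section Main

variable (N : ℕ) [NeZero N]

/-- `n` is divisible into the order at `∞` of the double difference. -/
theorem sstc_order_dvd (σ τ : GQ) (n : ℕ) (g : modularFunctionFieldBar N) (hg : g ≠ 0)
    (hdiv : ∀ P : Place Qb (modularFunctionFieldBar N), (n : ℤ) ∣ P.ord g) :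
    (n : ℤ) ∣ ((ssDDBar N σ τ g : modularFunctionFieldBar N) : LaurentSeries Qb).order := by
  obtain ⟨Pinf, hPinf⟩ := s18d_cusp_place N
  have h0 : ssDDBar N σ τ g ≠ 0 := by
    rw [sstk_dd_eq]
    exact sstk_dd_ne_zero _ _ hg
  rw [← hPinf _ h0, sstk_dd_eq, sstk_ord_dd _ _ hg]
  exact dvd_sub (dvd_sub (dvd_add (hdiv _) (hdiv _)) (hdiv _)) (hdiv _)

theorem sstc_dd_ne_zero (σ τ : GQ) (g : modularFunctionFieldBar N) (hg : g ≠ 0) :
    ssDDBar N σ τ g ≠ 0 := by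
  rw [sstk_dd_eq]
  exact sstk_dd_ne_zero _ _ hg

/-- `p ≠ q` is a unit of `𝔸 ∩ E` when `𝔸` lies over `q`. -/
theorem sstc_isUnit_natCast (A : ValuationSubring Qb) (E : IntermediateField ℚ Qb) {p q : ℕ}
    (hp : p.Prime) (hq : q.Prime) (hqp : q ≠ p) (hA : A.LiesOverPrime q) :
    IsUnit ((p : ℕ) : ↥(s18dVal A E)) := by
  haveI : Fact q.Prime := ⟨hq⟩
  have hℓmem := s18d_natCast_mem (ℓ := q) A E hA
  have hcop : Nat.Coprime p q := (Nat.coprime_primes hp hq).mpr (Ne.symm hqp)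
  obtain ⟨a, b, hab⟩ : ∃ a b : ℤ, a * p + b * q = 1 := by
    have := Int.gcd_eq_gcd_ab p q
    rw [Int.gcd_natCast_natCast, hcop.gcd_eq_one] at this
    exact ⟨Int.gcdA p q, Int.gcdB p q, by push_cast at this; linarith⟩
  have h1 : ((a : ↥(s18dVal A E))) * (p : ↥(s18dVal A E)) =
      1 - (b : ↥(s18dVal A E)) * (q : ↥(s18dVal A E)) := by
    have := congrArg (Int.cast : ℤ → ↥(s18dVal A E)) hab
    push_cast at this
    linear_combination this
  have h2 : IsUnit (1 - (b : ↥(s18dVal A E)) * (q : ↥(s18dVal A E))) := by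
    by_contra hnu
    have h3 : (1 - (b : ↥(s18dVal A E)) * (q : ↥(s18dVal A E))) ∈
        IsLocalRing.maximalIdeal ↥(s18dVal A E) := hnu
    have h4 : (b : ↥(s18dVal A E)) * (q : ↥(s18dVal A E)) ∈
        IsLocalRing.maximalIdeal ↥(s18dVal A E) := Ideal.mul_mem_left _ _ hℓmem
    have h5 := Ideal.add_mem _ h3 h4
    rw [sub_add_cancel] at h5
    exact (Ideal.ne_top_iff_one _).mp (IsLocalRing.maximalIdeal.isMaximal _).ne_top h5
  rw [← h1] at h2
  exact isUnit_of_mul_isUnit_right h2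

/-- **THE ASSEMBLY** : the concrete side at every `𝔸` over `q` (for all big enough number fields)
gives the function-level core `SsCore N p q`. -/
theorem ss_core_of_geo (p q : ℕ) (hp : p.Prime) (hq : q.Prime) (hqp : q ≠ p)
    (hgeo : ∀ A : ValuationSubring Qb, A.LiesOverPrime q →
      ∃ (E₁ : IntermediateField ℚ Qb) (_ : FiniteDimensional ℚ E₁),
        ∀ (E : IntermediateField ℚ Qb) [FiniteDimensional ℚ E] [Normal ℚ E]
          [IsDiscreteValuationRing ↥(s18dVal A E)] [CharZero ↥(s18dVal A E)], E₁ ≤ E →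
          ∃ t : modularFunctionFieldFullC E N, SsGeo N A E t) :
    SsCore N p q := by
  intro A hA σ hσ τ hτ k g hg hdiv
  have hnpos : 0 < p ^ k := pow_pos hp.pos k
  obtain ⟨E₁, hE₁, hgeoE⟩ := hgeo A hA
  haveI := hE₁
  -- the roots we need in `E`
  obtain ⟨ζt, hζt⟩ := s18dd_exists_primitiveRoot (p ^ k) hnpos
  have hh0 : ssDDBar N σ τ g ≠ 0 := sstc_dd_ne_zero N σ τ g hg
  obtain ⟨ct, hct⟩ : ∃ c : Qb, c ^ (p ^ k) =
      ((ssDDBar N σ τ g : modularFunctionFieldBar N) : LaurentSeries Qb).leadingCoeff :=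
    IsAlgClosed.exists_pow_nat_eq _ hnpos
  obtain ⟨E₂, hE₂, hdesc⟩ := ssd_descend N (p ^ k) g hg hdiv
  haveI := hE₂
  haveI halg : Algebra.IsAlgebraic ℚ Qb := AlgebraicClosure.isAlgebraic ℚ
  haveI hcl : IsAlgClosure ℚ Qb := AlgebraicClosure.instIsAlgClosure ℚ
  haveI hnormQb : Normal ℚ Qb := IsAlgClosure.normal ℚ Qb
  -- the number field
  obtain ⟨E₃, hE₃⟩ : ∃ E₃ : IntermediateField ℚ Qb, E₃ = E₁ ⊔ E₂ ⊔ ℚ⟮ζt⟯ ⊔ ℚ⟮ct⟯ := ⟨_, rfl⟩
  haveI hfdζ : FiniteDimensional ℚ ℚ⟮ζt⟯ :=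
    IntermediateField.adjoin.finiteDimensional (Algebra.IsAlgebraic.isAlgebraic ζt).isIntegral
  haveI hfdc : FiniteDimensional ℚ ℚ⟮ct⟯ :=
    IntermediateField.adjoin.finiteDimensional (Algebra.IsAlgebraic.isAlgebraic ct).isIntegral
  haveI hfd₃ : FiniteDimensional ℚ E₃ := by
    rw [hE₃]
    haveI : FiniteDimensional ℚ (E₁ ⊔ E₂ : IntermediateField ℚ Qb) :=
      IntermediateField.finiteDimensional_sup _ _
    haveI : FiniteDimensional ℚ (E₁ ⊔ E₂ ⊔ ℚ⟮ζt⟯ : IntermediateField ℚ Qb) :=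
      IntermediateField.finiteDimensional_sup _ _
    exact IntermediateField.finiteDimensional_sup _ _
  obtain ⟨E, hEdef⟩ : ∃ E : IntermediateField ℚ Qb, E = IntermediateField.normalClosure ℚ E₃ Qb :=
    ⟨_, rfl⟩
  have hE₃E : E₃ ≤ E := hEdef ▸ IntermediateField.le_normalClosure E₃
  haveI hEfd : FiniteDimensional ℚ E := by
    rw [hEdef]; exact normalClosure.is_finiteDimensional ℚ E₃ Qb
  haveI hEn : Normal ℚ E := by
    rw [hEdef]; exact normalClosure.normal ℚ E₃ Qb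
  have hE₁E : E₁ ≤ E := le_trans (hE₃ ▸ (le_sup_left.trans (le_sup_left.trans le_sup_left))) hE₃E
  have hE₂E : E₂ ≤ E := le_trans (hE₃ ▸ (le_sup_right.trans (le_sup_left.trans le_sup_left))) hE₃E
  have hζtE : ζt ∈ E := hE₃E (hE₃ ▸ (le_sup_left (a := E₁ ⊔ E₂ ⊔ ℚ⟮ζt⟯) (b := ℚ⟮ct⟯))
    ((le_sup_right (a := E₁ ⊔ E₂) (b := ℚ⟮ζt⟯)) (IntermediateField.mem_adjoin_simple_self ℚ ζt)))
  have hctE : ct ∈ E := hE₃E (hE₃ ▸ (le_sup_right (a := E₁ ⊔ E₂ ⊔ ℚ⟮ζt⟯) (b := ℚ⟮ct⟯))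
    (IntermediateField.mem_adjoin_simple_self ℚ ct))
  obtain ⟨gE, hgE, hg1, hg2, hg3⟩ := hdesc E hE₂E
  haveI : Fact q.Prime := ⟨hq⟩
  haveI : IsDiscreteValuationRing ↥(s18dVal A E) := s18d_isDVR A E hA
  haveI : CharZero ↥(s18dVal A E) := ⟨fun a b h => by
    have h1 := congrArg (fun x : ↥(s18dVal A E) => (x : E)) h
    simpa using h1⟩
  obtain ⟨ϖ, hϖ⟩ := IsDiscreteValuationRing.exists_irreducible ↥(s18dVal A E)
  obtain ⟨t, geo⟩ := hgeoE E hE₁E
  haveI := geo.fin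
  have hgE0 : gE ≠ 0 := by
    rintro rfl
    rw [map_zero] at hgE
    exact hg hgE.symm
  -- the two automorphisms over `E`, kept opaque
  obtain ⟨σE, hσE⟩ : ∃ s, s = ssdAut E N (σ.restrictNormal E) := ⟨_, rfl⟩
  obtain ⟨τE, hτE⟩ : ∃ s, s = ssdAut E N (τ.restrictNormal E) := ⟨_, rfl⟩
  have hσG : σE ∈ ssInertiaE E N A := hσE ▸ mem_ssInertiaE E N A hσ
  have hτG : τE ∈ ssInertiaE E N A := hτE ▸ mem_ssInertiaE E N A hτ
  have hup : ssdUp E N (ssnfDD σE τE gE) = ssDDBar N σ τ g := by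
    rw [hσE, hτE, ← hgE]
    exact sstc_up_dd E N σ τ gE
  obtain ⟨hE', hhE'⟩ : ∃ x, x = ssnfDD σE τE gE := ⟨_, rfl⟩
  rw [← hhE'] at hup
  have hser : s18dUp E (hE' : LaurentSeries E) =
      ((ssDDBar N σ τ g : modularFunctionFieldBar N) : LaurentSeries Qb) :=
    congrArg Subtype.val hup
  have hE'0 : (hE' : LaurentSeries E) ≠ 0 := by
    intro h0
    apply hh0
    apply Subtype.ext
    rw [← hser, h0, map_zero]
    rfl
  -- the order at `∞`
  have hord : (hE' : LaurentSeries E).order =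
      ((ssDDBar N σ τ g : modularFunctionFieldBar N) : LaurentSeries Qb).order := by
    rw [← hser, s18dd_order_coeffMap]
  obtain ⟨k', hk'⟩ := sstc_order_dvd N σ τ (p ^ k) g hg hdiv
  -- the leading coefficient
  have hcE : (⟨ct, hctE⟩ : E) ^ (p ^ k) = (hE' : LaurentSeries E).coeff (hE' : LaurentSeries E).order := by
    apply (algebraMap E Qb).injective
    rw [map_pow]
    show ct ^ (p ^ k) = _
    rw [hct, HahnSeries.leadingCoeff_eq, ← hser, s18dd_order_coeffMap, coeffMap_coeff]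
  have hnE : ((p ^ k : ℕ) : E) ≠ 0 := Nat.cast_ne_zero.mpr hnpos.ne'
  obtain ⟨y, hy⟩ := s18dd_exists_root (p ^ k) hnpos.ne' hnE (hE' : LaurentSeries E) hE'0 k'
    (by rw [hord, hk']) ⟨ct, hctE⟩ hcE
  -- the root of unity in `𝔸 ∩ E`
  have hζtA : ζt ∈ A := sstc_mem_of_pow_eq_one A hnpos.ne' hζt.pow_eq_one
  obtain ⟨ζA, hζA⟩ : ∃ z : ↥(s18dVal A E), algebraMap E Qb (z : E) = ζt :=
    ⟨⟨⟨ζt, hζtE⟩, hζtA⟩, rfl⟩
  have hζAprim : IsPrimitiveRoot ζA (p ^ k) := by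
    have hinj : Function.Injective
        ((algebraMap E Qb).comp (s18dVal A E).subtype : ↥(s18dVal A E) →+* Qb) :=
      (algebraMap E Qb).injective.comp Subtype.val_injective
    refine IsPrimitiveRoot.of_map_of_injective (f := ((algebraMap E Qb).comp
      (s18dVal A E).subtype : ↥(s18dVal A E) →+* Qb)) ?_ hinj
    show IsPrimitiveRoot (algebraMap E Qb (ζA : E)) (p ^ k)
    rw [hζA]
    exact hζt
  have hnu : IsUnit ((p ^ k : ℕ) : ↥(s18dVal A E)) := by
    rw [Nat.cast_pow]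
    exact (sstc_isUnit_natCast A E hp hq hqp hA).pow k
  -- the abstract number-field theorem
  have hyF : y ∈ modularFunctionFieldFullC E N :=
    sst_apply hϖ (modularFunctionFieldFullC E N) t geo.transc (p ^ k) hnu ζA hζAprim
      (ssInertiaE E N A) (fun γ hγ => (geo.inertial ϖ hϖ γ hγ).1)
      (fun γ hγ => (geo.inertial ϖ hϖ γ hγ).2) σE τE hσG hτG
      (geo.k2 ϖ hϖ σE hσG τE hτG) (geo.loc0 ϖ hϖ σE hσG τE hτG)
      (geo.locInf ϖ hϖ σE hσG τE hτG) gE hgE0 hg1 hg2 hg3 y (by rw [hy, hhE'])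
  refine ⟨ssdUp E N ⟨y, hyF⟩, ?_⟩
  rw [← map_pow, ← hup]
  congr 1
  exact Subtype.ext hy

end Main

end Fermat.Agent.SS
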