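import Mathlib
import Fermat.Agent.SS.Top.Core
import Fermat.Agent.SS.Transfer
import Fermat.Agent.SS.AuxLevel

/-!
# Program S (S34), package TOP : `SsMono` from the concrete side

`ss_mono_of_geo` : the concrete side `SsGeo N 𝔸 E t` at every `𝔸` over `q` (for all big enough number
fields `E`) gives the monodromy statement `SsMono N p q` consumed by `ss_unipotent_of_mono`
(`SS/Transfer.lean`).
-/

set_option autoImplicit false
set_option linter.unusedSectionVars false
set_option linter.unusedVariables false

noncomputable section

namespace Fermat.Agent.SS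

open ModularCurve AlgebraicCurve IntermediateField Fermat.Agent.S18

local notation "Qb" => AlgebraicClosure ℚ

/-- the hypothesis of `ss_core_of_geo` : the concrete side at every `𝔸` over `q`, for all big enough
number fields. -/
def SsGeoAt (N : ℕ) [NeZero N] (q : ℕ) : Prop :=
  ∀ A : ValuationSubring Qb, A.LiesOverPrime q →
    ∃ (E₁ : IntermediateField ℚ Qb) (_ : FiniteDimensional ℚ E₁),
      ∀ (E : IntermediateField ℚ Qb) [FiniteDimensional ℚ E] [Normal ℚ E]
        [IsDiscreteValuationRing ↥(s18dVal A E)] [CharZero ↥(s18dVal A E)], E₁ ≤ E →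
        ∃ t : modularFunctionFieldFullC E N, SsGeo N A E t

/-- the monodromy statement from the concrete side. -/
theorem ss_mono_of_geo (N : ℕ) [NeZero N] (p q : ℕ) (hp : p.Prime) (hq : q.Prime) (hqp : q ≠ p)
    (hgeo : SsGeoAt N q) : Fermat.Agent.G.SsMono N p q := by
  intro P hP τ hτ x hx
  have h := ss_mono_of_core N p q hp (ss_core_of_geo N p q hp hq hqp hgeo) P hP τ hτ τ hτ x hx
  rw [h, two_nsmul]

end Fermat.Agent.SS
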