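import Mathlib
import Fermat.Agent.SS.Top.Main

/-!
# Program S (S34), package TOP : the final reduction

`SsGeoAll` : the concrete side `SsGeoAt N q` at every level `N` with `q ‖ N` at which a good chart
coordinate exists (`q ≥ 5` : `t = j`; `q = 2`, `3 ∣ N` : `t = h₃`; `q = 3`, `2 ∣ N` : `t = h₂`).
`ss_mono_of_geoAll` : `SsGeoAll` gives `SsMono N p q` for all `q ‖ N`, `q ≠ p` (auxiliary level
`N · (5 - q)` for `q ∈ {2, 3}`, `(5 - q) ∤ N` : `SS/AuxLevel.lean`).
`ss_unipotent_of_geoAll` : S34 from `SsGeoAll`.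
-/

set_option autoImplicit false
set_option linter.unusedSectionVars false
set_option linter.unusedVariables false

noncomputable section

namespace Fermat.Agent.SS

open ModularCurve AlgebraicCurve IntermediateField Fermat.Agent.S18 Fermat.Agent.G

/-- the concrete side at every level where a good chart coordinate exists. -/
def SsGeoAll : Prop :=
  ∀ (N : ℕ) [NeZero N] (q : ℕ), q.Prime → q ∣ N → ¬ q ^ 2 ∣ N →
    (5 ≤ q ∨ (q = 2 ∧ 3 ∣ N) ∨ (q = 3 ∧ 2 ∣ N)) → SsGeoAt N q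

/-- the monodromy statement at every `q ‖ N`, `q ≠ p`. -/
theorem ss_mono_of_geoAll (h : SsGeoAll) (N : ℕ) [NeZero N] (p q : ℕ) (hp : p.Prime)
    (hq : q.Prime) (hqp : q ≠ p) (hqN : q ∣ N) (hq2 : ¬ q ^ 2 ∣ N) : SsMono N p q := by
  by_cases h5 : 5 ≤ q
  · exact ss_mono_of_geo N p q hp hq hqp (h N q hq hqN hq2 (Or.inl h5))
  have hq23 : q = 2 ∨ q = 3 := by
    have h2 := hq.two_le
    have hlt : q < 5 := not_le.mp h5
    interval_cases q
    · exact Or.inl rfl
    · exact Or.inr rfl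
    · exact absurd hq (by norm_num)
  rcases hq23 with rfl | rfl
  · -- `q = 2`
    by_cases h3 : 3 ∣ N
    · exact ss_mono_of_geo N p 2 hp hq hqp (h N 2 hq hqN hq2 (Or.inr (Or.inl ⟨rfl, h3⟩)))
    · haveI : NeZero (N * 3) := ⟨Nat.mul_ne_zero (NeZero.ne N) (by norm_num)⟩
      refine ss_mono_two_of_aux N p hp (Ne.symm hqp) h3 ?_
      refine ss_mono_of_geo (N * 3) p 2 hp hq hqp
        (h (N * 3) 2 hq (Dvd.dvd.mul_right hqN 3) ?_ (Or.inr (Or.inl ⟨rfl, dvd_mul_left 3 N⟩)))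
      intro h4
      apply hq2
      have hc : Nat.Coprime (2 ^ 2) 3 := by norm_num
      exact hc.dvd_of_dvd_mul_right h4
  · -- `q = 3`
    by_cases h2 : 2 ∣ N
    · exact ss_mono_of_geo N p 3 hp hq hqp (h N 3 hq hqN hq2 (Or.inr (Or.inr ⟨rfl, h2⟩)))
    · haveI : NeZero (N * 2) := ⟨Nat.mul_ne_zero (NeZero.ne N) (by norm_num)⟩
      refine ss_mono_three_of_aux N p hp (Ne.symm hqp) h2 ?_
      refine ss_mono_of_geo (N * 2) p 3 hp hq hqp
        (h (N * 2) 3 hq (Dvd.dvd.mul_right hqN 2) ?_ (Or.inr (Or.inr ⟨rfl, dvd_mul_left 2 N⟩)))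
      intro h9
      apply hq2
      have hc : Nat.Coprime (3 ^ 2) 2 := by norm_num
      exact hc.dvd_of_dvd_mul_right h9

end Fermat.Agent.SS
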